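/-
S55 (Poitou-Tate): CONTRACTS between the arithmetic blocks (L, B, R, G) and the formal blocks
(F1, F2).  Every inter-block theorem is a `def ...Statement : Prop`; producers prove it,
consumers take it as a hypothesis.  No sorry here.
-/
import Fermat.Agent.PT.Gal.Setup
import Fermat.Agent.PT.Coh.ChainMap

set_option autoImplicit false

open ExtCitation
open scoped Pointwise

noncomputable section

namespace Fermat.Agent.PT

section Incl

variable {k G A : Type*} [CommRing k] [Group G] [AddCommGroup A] [Module k A]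
variable {L L' : LevelSystem G} {V V' : Subgroup G} (ρ : Representation k G A)

/-- Restriction (`V' ≤ V`) combined with inflation (`L ≤ L'`): the inclusion of complexes. -/
def inclC (hL : L ≤ L') (hV : V' ≤ V) : CMap L V ρ L' V' ρ where
  T0 := LinearMap.id
  T1 := LinearMap.id
  T2 := LinearMap.id
  T3 := LinearMap.id
  mem0 := by
    rintro f ⟨he, U, hU, hs⟩; exact ⟨fun v hv => he v (hV hv), U, hL hU, hs⟩
  mem1 := by
    rintro f ⟨he, U, hU, hs⟩; exact ⟨fun v hv => he v (hV hv), U, hL hU, hs⟩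
  mem2 := by
    rintro f ⟨he, U, hU, hs⟩; exact ⟨fun v hv => he v (hV hv), U, hL hU, hs⟩
  mem3 := by
    rintro f ⟨he, U, hU, hs⟩; exact ⟨fun v hv => he v (hV hv), U, hL hU, hs⟩
  comm0 _ _ := rfl
  comm1 _ _ := rfl
  comm2 _ _ := rfl
  comm3 _ h := h.2

end Incl

section Loc

variable {k A : Type*} [CommRing k] [AddCommGroup A] [Module k A]

/-- Localisation `H¹_S(V,ρ) → H¹(V ⊓ Dec 𝒜, ρ)` (induced by the inclusion of complexes). -/
def loc1 (S : Finset Nat.Primes) (V : Subgroup GQ) (ρ : Representation k GQ A) (𝒜 : Place) :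
    H1 (LS S) V ρ →ₗ[k] H1 Lall (V ⊓ Dec 𝒜) ρ :=
  (inclC ρ (LS_le_Lall S) (inf_le_left : V ⊓ Dec 𝒜 ≤ V)).H1

/-- Localisation `H²_S(V,ρ) → H²(V ⊓ Dec 𝒜, ρ)` (induced by the inclusion of complexes). -/
def loc2 (S : Finset Nat.Primes) (V : Subgroup GQ) (ρ : Representation k GQ A) (𝒜 : Place) :
    H2 (LS S) V ρ →ₗ[k] H2 Lall (V ⊓ Dec 𝒜) ρ :=
  (inclC ρ (LS_le_Lall S) (inf_le_left : V ⊓ Dec 𝒜 ≤ V)).H2

/-- A finite family of places over `S` representing every `V`-orbit exactly once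
(= the places of the field `Qbar^V` over `S`). -/
structure IsPlaceSystem (S : Finset Nat.Primes) (V : Subgroup GQ) {ι : Type} (𝒜 : ι → Place) :
    Prop where
  overS : ∀ i, (𝒜 i).OverS S
  inj : ∀ i j, ∀ v ∈ V, v • 𝒜 i = 𝒜 j → i = j
  surj : ∀ ℬ : Place, ℬ.OverS S → ∃ i, ∃ v ∈ V, v • 𝒜 i = ℬ

end Loc

variable (p : ℕ) [Fact p.Prime]

/-! ### Block L (local) -/

/-- (L1) `H²(k_𝒜, μ_p)` has order `p` for every number field `k` and finite place `𝒜`. -/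
def LocalCardStatement : Prop :=
  ∀ V : Subgroup GQ, Lall.IsOpen V → ∀ 𝒜 : Place, 𝒜.IsFin →
    Nat.card (H2 Lall (V ⊓ Dec 𝒜) (cycRep p)) = p

/-- (L-nr) a class of `H²(G_{k,S}, μ_p)` is trivial at every finite place outside `S`. -/
def LocalNrStatement : Prop :=
  ∀ S : Finset Nat.Primes, pPrime p ∈ S → ∀ V : Subgroup GQ, (LS S).IsOpen V →
    ∀ 𝒜 : Place, 𝒜.IsFin → ¬ 𝒜.OverS S →
      ∀ z ∈ Z2 (LS S) V (cycRep p), z ∈ B2 Lall (V ⊓ Dec 𝒜) (cycRep p)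

/-! ### Block G (global) -/

/-- (HP) Hasse principle for `H²(G_k, μ_p)`, `k` a number field, `p` odd. -/
def HPStatement : Prop :=
  ∀ V : Subgroup GQ, Lall.IsOpen V → ∀ z ∈ Z2 Lall V (cycRep p),
    (∀ 𝒜 : Place, 𝒜.IsFin → z ∈ B2 Lall (V ⊓ Dec 𝒜) (cycRep p)) → z ∈ B2 Lall V (cycRep p)

/-- (R') over `Q`: a class of `H²(G_Q, μ_p)` which is trivial at all primes `q ≠ q₀` is trivial
at `q₀`. -/
def RPrimeStatement : Prop :=
  ∀ z ∈ Z2 Lall ⊤ (cycRep p), ∀ q₀ : Nat.Primes,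
    (∀ 𝒜 : Place, ∀ q : Nat.Primes, q ≠ q₀ → 𝒜.LiesOverPrime (q : ℕ) →
      z ∈ B2 Lall (⊤ ⊓ Dec 𝒜) (cycRep p)) →
    ∀ 𝒜₀ : Place, 𝒜₀.LiesOverPrime (q₀ : ℕ) → z ∈ B2 Lall (⊤ ⊓ Dec 𝒜₀) (cycRep p)

/-- (FA) for `k ∋ μ_p` unramified outside `S`: the image of
`H²(G_{k,S}, μ_p) → ∏_{w | S} H²(k_w, μ_p)` has index at most `p`
(it contains the kernel of a linear form). -/
def FAStatement : Prop :=
  ∀ S : Finset Nat.Primes, pPrime p ∈ S → ∀ V : Subgroup GQ, (LS S).IsOpen V → V ≤ G1 p →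
    ∀ (ι : Type) [Fintype ι] (𝒜 : ι → Place), IsPlaceSystem S V 𝒜 →
      ∃ φ : (∀ i, H2 Lall (V ⊓ Dec (𝒜 i)) (cycRep p)) →ₗ[ZMod p] ZMod p,
        ∀ y, φ y = 0 → ∃ x : H2 (LS S) V (cycRep p), ∀ i, loc2 S V (cycRep p) (𝒜 i) x = y i

/-- (FC) for `k ∋ μ_p` unramified outside `S`, given nonzero local functionals `lam i` satisfying
reciprocity on `H²(G_{k,S}, μ_p)`:  `|Ш²_S(k,μ_p)| ≤ |Ш¹_S(k,μ_p)| < ∞`. -/
def FCStatement : Prop :=
  ∀ S : Finset Nat.Primes, pPrime p ∈ S → ∀ V : Subgroup GQ, (LS S).IsOpen V → V ≤ G1 p →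
    ∀ (ι : Type) [Fintype ι] (𝒜 : ι → Place), IsPlaceSystem S V 𝒜 →
      ∀ lam : ∀ i, H2 Lall (V ⊓ Dec (𝒜 i)) (cycRep p) →ₗ[ZMod p] ZMod p,
        (∀ i, lam i ≠ 0) →
        (∀ x : H2 (LS S) V (cycRep p), ∑ i, lam i (loc2 S V (cycRep p) (𝒜 i) x) = 0) →
        Finite (Sha1 S V (cycRep p)) ∧ Finite (Sha2 S V (cycRep p)) ∧
          Nat.card (Sha2 S V (cycRep p)) ≤ Nat.card (Sha1 S V (cycRep p))

end Fermat.Agent.PT

end
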