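/-
S55 (Poitou-Tate), block G: sub-contracts (leaf statements) of the global block.
-/
import Fermat.Agent.PT.Global.Interface

set_option autoImplicit false

open ExtCitation
open scoped Pointwise

noncomputable section

namespace Fermat.Agent.PT

variable (p : ℕ) [Fact p.Prime]

/-- (PS) the places over `S` of a number field form a finite set. -/
def PlaceSystemStatement : Prop :=
  ∀ (S : Finset Nat.Primes) (V : Subgroup GQ), Lall.IsOpen V →
    ∃ (ι : Type) (_ : Fintype ι) (𝒜 : ι → Place), IsPlaceSystem S V 𝒜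

/-- (FA0) cyclotomic layer: below every `S`-open `V ≤ G1` there are `S`-open subgroups
`V'' ≤ V'`, both normal in `GQ`, with `V''` of index `p` in `V'`, such that NO place over `S`
splits in `Qbar^V'' / Qbar^V'`
(take `V' = U ⊓ Gal(Qbar/Q(ζ_{p^m}))`, `V'' = U ⊓ Gal(Qbar/Q(ζ_{p^(m+1)}))`, `m` large). -/
def CycLayerStatement : Prop :=
  ∀ S : Finset Nat.Primes, pPrime p ∈ S → ∀ V : Subgroup GQ, (LS S).IsOpen V → V ≤ G1 p →
    ∃ V' V'' : Subgroup GQ, V'' ≤ V' ∧ V' ≤ V ∧ (LS S).IsOpen V'' ∧ V'.Normal ∧ V''.Normal ∧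
      V''.relIndex V' = p ∧ ∀ 𝒜 : Place, 𝒜.OverS S → ¬ (V' ⊓ Dec 𝒜 ≤ V'')

end Fermat.Agent.PT

end
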