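/-
S55 (Poitou-Tate), block G, leaf (PS): `GQ` is transitive on the places over a rational prime;
finite place systems exist.
-/
import Fermat.Agent.PT.Global.Interface2
import Fermat.Agent.Lib.Minkowski

set_option autoImplicit false

open ExtCitation
open scoped Pointwise

noncomputable section

namespace Fermat.Agent.PT

open Fermat.Agent.Lib.Frobenius

/-- Membership in a place over `q` in terms of its centre on the algebraic integers. -/
theorem Place.mem_iff_exists_integral (𝒜 : Place) {q : ℕ} (hq : q.Prime)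
    (h𝒜 : 𝒜.LiesOverPrime q) (x : Qbar) :
    x ∈ 𝒜 ↔ ∃ b s : Qbar, IsIntegral ℤ b ∧ IsIntegral ℤ s ∧ s ∉ 𝒜.nonunits ∧ x * s = b := by
  constructor
  · intro hx
    exact exists_mul_eq_of_mem 𝒜 hq h𝒜 hx
  · rintro ⟨b, s, hb, hs, hsn, hxs⟩
    have hs0 : s ≠ 0 := ne_zero_of_not_mem_nonunits 𝒜 hsn
    have hx : x = b * s⁻¹ := by
      rw [← hxs, mul_assoc, mul_inv_cancel₀ hs0, mul_one]
    rw [hx]
    exact 𝒜.mul_mem _ _ (mem_of_isIntegral 𝒜 hb) (inv_mem_of_not_mem_nonunits 𝒜 hsn)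

/-- `GQ` acts transitively on the places of `Qbar` over a rational prime. -/
theorem exists_smul_eq_of_liesOverPrime {q : ℕ} (hq : q.Prime) (𝒜 ℬ : Place)
    (h𝒜 : 𝒜.LiesOverPrime q) (hℬ : ℬ.LiesOverPrime q) : ∃ g : GQ, g • 𝒜 = ℬ := by
  have key : ∀ (𝒞 : Place), 𝒞.LiesOverPrime q → ∀ a : intSubring ℚ,
      (Fermat.Agent.Lib.Minkowski.intMap ℚ Qbar a ∈ centre 𝒞 ↔
        ∃ n : ℤ, (a : ℚ) = n ∧ (q : ℤ) ∣ n) := by
    intro 𝒞 h𝒞 a
    obtain ⟨n, hn⟩ := IsIntegrallyClosed.algebraMap_eq_of_integral (mem_intSubring.mp a.2)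
    have hn' : ((n : ℤ) : ℚ) = (a : ℚ) := by simpa using hn
    have hcast : ((Fermat.Agent.Lib.Minkowski.intMap ℚ Qbar a : intSubring Qbar) : Qbar)
        = ((n : ℤ) : Qbar) := by
      rw [Fermat.Agent.Lib.Minkowski.coe_intMap, ← hn']
      simp
    rw [mem_centre, hcast]
    constructor
    · intro h
      exact ⟨n, hn'.symm, int_dvd_of_mem_nonunits 𝒞 hq h𝒞 h⟩
    · rintro ⟨n', hn1, c, rfl⟩
      have : n = (q : ℤ) * c := by
        have : ((n : ℤ) : ℚ) = (((q : ℤ) * c : ℤ) : ℚ) := by rw [hn', hn1]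
        exact_mod_cast this
      rw [this]
      push_cast
      rw [mul_comm]
      exact mul_mem_nonunits 𝒞 (mem_of_isIntegral 𝒞 isIntegral_algebraMap) h𝒞
  obtain ⟨g, hg⟩ := Fermat.Agent.Lib.Minkowski.exists_smul_eq (K := ℚ) (L := Qbar)
    (centre 𝒜) (centre ℬ) (fun a => by rw [key 𝒜 h𝒜, key ℬ hℬ])
  -- translation of `hg` to elements
  have hcen : ∀ s : Qbar, IsIntegral ℤ s → (g s ∈ ℬ.nonunits ↔ s ∈ 𝒜.nonunits) := by
    intro s hs
    have h1 : (⟨s, hs⟩ : intSubring Qbar) ∈ centre 𝒜 ↔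
        g • (⟨s, hs⟩ : intSubring Qbar) ∈ g • centre 𝒜 :=
      (Ideal.smul_mem_pointwise_smul_iff).symm
    rw [← hg, mem_centre, mem_centre] at h1
    exact h1.symm
  refine ⟨g, ?_⟩
  ext x
  rw [ValuationSubring.mem_pointwise_smul_iff_inv_smul_mem,
    Place.mem_iff_exists_integral 𝒜 hq h𝒜, Place.mem_iff_exists_integral ℬ hq hℬ]
  have hgg : ∀ y : Qbar, g (g⁻¹ • y) = y := fun y => by
    change g • (g⁻¹ • y) = y
    rw [smul_inv_smul]
  constructor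
  · rintro ⟨b, s, hb, hs, hsn, hxs⟩
    refine ⟨g b, g s, hb.map (g.restrictScalars ℤ), hs.map (g.restrictScalars ℤ),
      fun h => hsn ((hcen s hs).mp h), ?_⟩
    rw [← hxs, map_mul, hgg]
  · rintro ⟨b, s, hb, hs, hsn, hxs⟩
    have hb' : IsIntegral ℤ (g⁻¹ • b) := hb.map ((g⁻¹ : GQ).restrictScalars ℤ)
    have hs' : IsIntegral ℤ (g⁻¹ • s) := hs.map ((g⁻¹ : GQ).restrictScalars ℤ)
    refine ⟨g⁻¹ • b, g⁻¹ • s, hb', hs', fun h => hsn ?_, ?_⟩
    · have := (hcen _ hs').mpr h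
      rwa [hgg] at this
    · rw [← hxs, smul_mul']

theorem Place.liesOverPrime_smul (g : GQ) (𝒜 : Place) (q : ℕ) (h : 𝒜.LiesOverPrime q) :
    (g • 𝒜).LiesOverPrime q := by
  have h1 : (q : Qbar) ∈ 𝒜.nonunits := h
  change (q : Qbar) ∈ (g • 𝒜).nonunits
  rw [ValuationSubring.mem_nonunits_iff_or] at h1 ⊢
  rcases h1 with h1 | h1
  · exact Or.inl h1
  · refine Or.inr fun h2 => h1 ?_
    rw [ValuationSubring.mem_pointwise_smul_iff_inv_smul_mem] at h2
    have h3 : g⁻¹ • ((q : Qbar)⁻¹) = (q : Qbar)⁻¹ := by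
      change (g⁻¹ : GQ) ((q : Qbar)⁻¹) = (q : Qbar)⁻¹
      rw [map_inv₀, map_natCast]
    rwa [h3] at h2

theorem Place.OverS.smul {S : Finset Nat.Primes} {𝒜 : Place} (h : 𝒜.OverS S) (g : GQ) :
    (g • 𝒜).OverS S := by
  obtain ⟨q, hq, h⟩ := h
  exact ⟨q, hq, Place.liesOverPrime_smul g 𝒜 q h⟩

/-- The orbit relation of `V` on the places over `S`. -/
def placeSetoid (S : Finset Nat.Primes) (V : Subgroup GQ) : Setoid {ℬ : Place // ℬ.OverS S} where
  r x y := ∃ v ∈ V, v • x.1 = y.1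
  iseqv :=
    { refl := fun x => ⟨1, V.one_mem, one_smul _ _⟩
      symm := by
        rintro x y ⟨v, hv, h⟩
        exact ⟨v⁻¹, V.inv_mem hv, by rw [← h, inv_smul_smul]⟩
      trans := by
        rintro x y z ⟨v, hv, h⟩ ⟨w, hw, h'⟩
        exact ⟨w * v, V.mul_mem hw hv, by rw [mul_smul, h, h']⟩ }

theorem finite_placeQuotient (S : Finset Nat.Primes) (V : Subgroup GQ) (hV : Lall.IsOpen V) :
    Finite (Quotient (placeSetoid S V)) := by
  obtain ⟨U, hU, hUV⟩ := hV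
  have hUn : U.Normal := Lall.normal' U hU
  have hUf : U.FiniteIndex := Lall.finiteIndex' U hU
  choose base hbase using fun q : Nat.Primes => exists_liesOverPrime Qbar q.2
  let f : (↥S) × (GQ ⧸ U) → Quotient (placeSetoid S V) := fun x =>
    Quotient.mk _ ⟨x.2.out • base x.1.1, ⟨x.1.1, x.1.2, Place.liesOverPrime_smul _ _ _ (hbase _)⟩⟩
  refine Finite.of_surjective f ?_
  intro i
  obtain ⟨⟨ℬ, q, hqS, hℬ⟩, rfl⟩ := Quotient.exists_rep i
  obtain ⟨g, hg⟩ := exists_smul_eq_of_liesOverPrime q.2 (base q) ℬ (hbase q) hℬ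
  refine ⟨(⟨q, hqS⟩, (g : GQ ⧸ U)), ?_⟩
  apply Quotient.sound
  obtain ⟨u, hu⟩ := QuotientGroup.mk_out_eq_mul U g
  refine ⟨g * (u : GQ)⁻¹ * g⁻¹, hUV (hUn.conj_mem _ (U.inv_mem u.2) g), ?_⟩
  change (g * (u : GQ)⁻¹ * g⁻¹) • ((g : GQ ⧸ U).out • base q) = ℬ
  rw [hu, ← mul_smul, ← hg]
  congr 1
  group

/-- (PS) finite place systems exist. -/
theorem placeSystem : PlaceSystemStatement := by
  intro S V hV
  have := finite_placeQuotient S V hV
  refine ⟨Quotient (placeSetoid S V), Fintype.ofFinite _, fun i => (Quotient.out i).1, ?_⟩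
  refine ⟨fun i => (Quotient.out i).2, ?_, ?_⟩
  · intro i j v hv h
    have h1 : (Quotient.mk (placeSetoid S V) (Quotient.out i)) =
        Quotient.mk (placeSetoid S V) (Quotient.out j) := Quotient.sound ⟨v, hv, h⟩
    rwa [Quotient.out_eq, Quotient.out_eq] at h1
  · intro ℬ hℬ
    refine ⟨Quotient.mk (placeSetoid S V) ⟨ℬ, hℬ⟩, ?_⟩
    exact Quotient.mk_out (s := placeSetoid S V) (⟨ℬ, hℬ⟩ : {ℬ : Place // ℬ.OverS S})

end Fermat.Agent.PT

end
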