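/-
S55 (Poitou-Tate), block G, leaf FA0: the cyclotomic layer.
-/
import Fermat.Agent.PT.Global.PlaceSystem
import Fermat.Agent.PT.Global.Cyc.Alg
import Fermat.Agent.PT.Global.Cyc.FrobQ
import Fermat.Agent.PT.Global.Cyc.RamP
import Fermat.Agent.PT.Global.Cyc.Index
import Fermat.Agent.PT.Global.Cyc.Level

set_option autoImplicit false

open ExtCitation
open scoped Pointwise

noncomputable section

namespace Fermat.Agent.PT

variable {p : ℕ} [Fact p.Prime]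

omit [Fact p.Prime] in
theorem CycLayer_Cyc_zero (g : GQ) : g ∈ Cyc p 0 := by
  intro z hz
  rw [pow_zero, pow_one] at hz
  rw [hz, map_one]

/-- an element acting on `μ_{p^N}` by `c > 1` with `c < p^N` is not in `Cyc p N`. -/
theorem CycLayer_not_mem {d : GQ} {N c : ℕ} (h : ActsBy p d N c) (h1 : 1 < c) (h2 : c < p ^ N) :
    d ∉ Cyc p N := by
  rw [h.mem_Cyc_iff le_rfl]
  intro hc
  have := hc.eq_of_lt_of_lt h2 (h1.trans h2)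
  omega

/-- in every decomposition group over a prime there is an element of `U` acting non trivially on
`μ_{p^∞}`. -/
theorem CycLayer_exists_not_mem (U : Subgroup GQ) [U.Normal] [U.FiniteIndex] (𝒜 : Place) {q : ℕ}
    (hq : q.Prime) (h𝒜 : 𝒜.LiesOverPrime q) : ∃ d ∈ U ⊓ Dec 𝒜, ∃ n, d ∉ Cyc p n := by
  have hp : p.Prime := Fact.out
  have hk : U.index ≠ 0 := Subgroup.FiniteIndex.index_ne_zero
  by_cases hqp : q = p
  · subst hqp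
    obtain ⟨d, hd, hact⟩ := exists_dec_actsBy_p 𝒜 h𝒜 ((1 + q) ^ U.index)
    refine ⟨d ^ U.index, ⟨Subgroup.pow_index_mem U d, Subgroup.pow_mem _ hd _⟩, _,
      CycLayer_not_mem (hact.pow U.index) (Nat.one_lt_pow hk (by have := hp.pos; omega))
        (Nat.lt_pow_self hp.one_lt)⟩
  · obtain ⟨d, hd, hact⟩ := exists_dec_actsBy_of_ne (p := p) 𝒜 hq hqp h𝒜
    refine ⟨d ^ U.index, ⟨Subgroup.pow_index_mem U d, Subgroup.pow_mem _ hd _⟩, _,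
      CycLayer_not_mem ((hact (q ^ U.index)).pow U.index) (Nat.one_lt_pow hk hq.one_lt)
        (Nat.lt_pow_self hp.one_lt)⟩

theorem CycLayer_conj_mem_Dec (g d : GQ) (𝒜 : Place) (hd : d ∈ Dec 𝒜) :
    g * d * g⁻¹ ∈ Dec (g • 𝒜) := by
  have h1 : d • 𝒜 = 𝒜 := hd
  show (g * d * g⁻¹) • (g • 𝒜) = g • 𝒜
  rw [← mul_smul, inv_mul_cancel_right, mul_smul, h1]

theorem CycLayer_step (hp2 : p ≠ 2) (U : Subgroup GQ) [U.Normal] [U.FiniteIndex]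
    (hU : U ≤ G1 p) {q : ℕ} (hq : q.Prime) :
    ∃ a : ℕ, 1 ≤ a ∧ ∀ 𝒜 : Place, 𝒜.LiesOverPrime q → ∀ m, a ≤ m →
      ∃ d ∈ U ⊓ Dec 𝒜, d ∈ Cyc p m ∧ d ∉ Cyc p (m + 1) := by
  classical
  obtain ⟨𝒜₀, h𝒜₀⟩ := Fermat.Agent.Lib.Frobenius.exists_liesOverPrime Qbar hq
  obtain ⟨d₀, hd₀, hex⟩ := CycLayer_exists_not_mem (p := p) U 𝒜₀ hq h𝒜₀
  have hfind := Nat.find_spec hex
  have hmin : ∀ n, n < Nat.find hex → d₀ ∈ Cyc p n := fun n hn => by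
    have := Nat.find_min hex hn
    simpa using this
  have h0 : Nat.find hex ≠ 0 := fun h => by
    rw [h] at hfind
    exact hfind (CycLayer_Cyc_zero d₀)
  have h1 : Nat.find hex ≠ 1 := fun h => by
    rw [h] at hfind
    exact hfind (G1_le_Cyc_one (hU hd₀.1))
  obtain ⟨a, ha⟩ : ∃ a, Nat.find hex = a + 1 := Nat.exists_eq_succ_of_ne_zero h0
  refine ⟨a, by omega, fun 𝒜 h𝒜 m hm => ?_⟩
  have hda : d₀ ∈ Cyc p a := hmin a (by omega)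
  have hda' : d₀ ∉ Cyc p (a + 1) := ha ▸ hfind
  obtain ⟨k, rfl⟩ := Nat.exists_eq_add_of_le hm
  obtain ⟨hk1, hk2⟩ := Cyc_key_iter hp2 (by omega) hda hda' k
  obtain ⟨g, rfl⟩ := exists_smul_eq_of_liesOverPrime hq 𝒜₀ 𝒜 h𝒜₀ h𝒜
  refine ⟨g * d₀ ^ (p ^ k) * g⁻¹, ⟨?_, ?_⟩, ?_, ?_⟩
  · exact Subgroup.Normal.conj_mem inferInstance _ (Subgroup.pow_mem _ hd₀.1 _) g
  · exact CycLayer_conj_mem_Dec g _ 𝒜₀ (Subgroup.pow_mem _ hd₀.2 _)
  · exact Subgroup.Normal.conj_mem inferInstance _ hk1 g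
  · intro h
    apply hk2
    have := Subgroup.Normal.conj_mem (inferInstance : (Cyc p (a + k + 1)).Normal) _ h g⁻¹
    simpa [mul_assoc] using this

theorem cycLayer (p : ℕ) [Fact p.Prime] (hp2 : p ≠ 2) : CycLayerStatement p := by
  classical
  intro S hpS V hV hVG
  have hp : p.Prime := Fact.out
  obtain ⟨U, hU, hUV⟩ := hV
  have hUn : U.Normal := (LS S).normal' U hU
  have hUf : U.FiniteIndex := (LS S).finiteIndex' U hU
  have step : ∀ q : Nat.Primes, ∃ a : ℕ, 1 ≤ a ∧ ∀ 𝒜 : Place, 𝒜.LiesOverPrime (q : ℕ) →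
      ∀ m, a ≤ m → ∃ d ∈ U ⊓ Dec 𝒜, d ∈ Cyc p m ∧ d ∉ Cyc p (m + 1) :=
    fun q => CycLayer_step hp2 U (hUV.trans hVG) q.2
  choose a ha1 ha using step
  set m := S.sup a with hm
  have hle : ∀ q ∈ S, a q ≤ m := fun q hq => Finset.le_sup hq
  have hm1 : 1 ≤ m := (ha1 _).trans (hle _ hpS)
  refine ⟨U ⊓ Cyc p m, U ⊓ Cyc p (m + 1), inf_le_inf_left _ (Cyc_succ_le p m),
    inf_le_left.trans hUV, ?_, inferInstance, inferInstance, ?_, ?_⟩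
  · obtain ⟨W, hW, h1, h2⟩ := (LS S).directed' U hU (Cyc p (m + 1)) (Cyc_mem_LS S hpS (m + 1))
    exact ⟨W, hW, le_inf h1 h2⟩
  · obtain ⟨𝒜₀, h𝒜₀⟩ := Fermat.Agent.Lib.Frobenius.exists_liesOverPrime Qbar hp
    obtain ⟨d, hd, hd1, hd2⟩ := ha (pPrime p) 𝒜₀ h𝒜₀ m (hle _ hpS)
    exact relIndex_Cyc U hm1 hd.1 hd1 hd2
  · rintro 𝒜 ⟨q, hqS, h𝒜⟩ hcon
    obtain ⟨d, hd, hd1, hd2⟩ := ha q 𝒜 h𝒜 m (hle q hqS)
    exact hd2 (hcon ⟨⟨hd.1, hd1⟩, hd.2⟩).2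

end Fermat.Agent.PT

end
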